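import Mathlib
import Fermat.Prelude.Def_AutomorphicForm_HeckeEigensystem
import Fermat.Prelude.Def_FLTPrelim_Modularity

/-!
# Row LT, WALL block A0 (helper556, WALL-ARCH chief): THE NOTION

OFF-MAIN.  Definitions only (no `sorry`, no opaque constant, nothing assumed).

`notion556 : AutomorphicForm.CuspidalityNotion ℂ` is the notion of *cuspidal automorphic Hecke
eigensystem of `GL₂` over a number field `K`, archimedean type included*, against which the leaves
of the WALL (`SEED` over `E`, `DESC3` for `E/F`, `DESC2` for `F/ℚ`, `PAR`, `DICT`) are to be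
stated.  `IsCusp K π` holds when ONE of the following holds.

* `IsCuspAdelicSph0 K π` -- there is a function `φ` on `GL₂(𝔸_K)` which is
  continuous, bounded, not identically zero, left invariant under `GL₂(K)`, right invariant under
  the principal congruence subgroup `U(𝔫)` of level `𝔫 = π.level` (trivial at the infinite places),
  right invariant under the positive real scalars and under the maximal connected compact subgroup
  at every infinite place (`U(2)` at a complex place, `SO(2)` at a real place), SPHERICAL OF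
  PARAMETER ZERO at every infinite place (mean-value property with the spherical function of
  parameter `0`: `d / sinh d` on `ℍ³`, the Legendre function `P_{-1/2}(cosh t)` on `ℍ²`; this is
  the derivative-free form of "eigenfunction of the Laplacian with eigenvalue `1`, resp. `1/4`"),
  CUSPIDAL (the constant term along the upper unipotent vanishes), and a HECKE EIGENFUNCTION at
  every finite place `v ∤ 𝔫` with `T_v φ = √q_v · π.a v · φ` and `φ(g ϖ_v) = π.b v · φ(g)`.
  So `π.a v = α_v + β_v`, `π.b v = α_v β_v` for the Satake parameters in the UNITARY (= Artin)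
  normalisation, as in `AutomorphicForm.IsBaseChangeAt`.
  Mathematically: `π` is the eigensystem of a cuspidal automorphic representation `Π` of
  `GL₂(𝔸_K)` with `Π^{U(𝔫)} ≠ 0`, `Π_w = π(1,1)` at the complex places,
  `Π_w ∈ {π(1,1), π(sgn,sgn)}` at the real places.
* `IsCuspHolQ K π` -- `[K : ℚ] = 1` and `π` is the eigensystem of a classical holomorphic
  cuspidal Hecke eigenform of weight ONE on `Γ₁(N)` (shape of the hypotheses of the landed S48 and
  of `LTB.WallOut`), i.e. `Π_∞ = π(1,sgn)`.

Over the fields of the WALL (`E` sextic, `F = ℚ(√-3)`: totally complex) only the first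
alternative occurs; over `ℚ` the descent of a form over `F` of type `π(1,1)` has type `π(1,1)`,
`π(sgn,sgn)` (first alternative, a Maass form of eigenvalue `1/4`) or `π(1,sgn)` (second
alternative); leaf `PAR` excludes the first alternative for an odd determinant.
-/

set_option autoImplicit false

open IsDedekindDomain NumberField AutomorphicForm
open CongruenceSubgroup
open scoped MatrixGroups

noncomputable section

namespace Fermat.Agent.LT.H556.A0

/-! ## The adelic group and its local components -/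

/-- The adele ring of the number field `K`. -/
abbrev Adl (K : Type) [Field K] [NumberField K] : Type := NumberField.AdeleRing (𝓞 K) K

/-- `GL₂` of the adeles of `K`, with the topology of units of the matrix ring. -/
abbrev G (K : Type) [Field K] [NumberField K] : Type := GL (Fin 2) (Adl K)

variable {K : Type} [Field K] [NumberField K]

/-- The matrix of `g` at the infinite place `w`, transported to `ℂ` by the embedding of the
completion (`extensionEmbedding`; real matrices at a real place). -/
def infComp (w : InfinitePlace K) (g : G K) : Matrix (Fin 2) (Fin 2) ℂ :=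
  fun i j => InfinitePlace.Completion.extensionEmbedding w
    (((g : Matrix (Fin 2) (Fin 2) (Adl K)) i j).1 w)

/-- The matrix of `g` at the finite place `v`. -/
def finComp (v : HeightOneSpectrum (𝓞 K)) (g : G K) :
    Matrix (Fin 2) (Fin 2) (v.adicCompletion K) :=
  fun i j => ((g : Matrix (Fin 2) (Fin 2) (Adl K)) i j).2 v

/-- `g` is the identity at the infinite place `w`. -/
def TrivAtInf (w : InfinitePlace K) (g : G K) : Prop :=
  ∀ i j, ((g : Matrix (Fin 2) (Fin 2) (Adl K)) i j).1 w
    = (1 : Matrix (Fin 2) (Fin 2) w.Completion) i j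

/-- `g` is the identity at the finite place `v`. -/
def TrivAtFin (v : HeightOneSpectrum (𝓞 K)) (g : G K) : Prop :=
  finComp v g = 1

/-- `g` is supported at the infinite place `w` (identity at every other place). -/
def IsLocalAtInf (w : InfinitePlace K) (g : G K) : Prop :=
  (∀ w' : InfinitePlace K, w' ≠ w → TrivAtInf w' g) ∧
    ∀ v : HeightOneSpectrum (𝓞 K), TrivAtFin v g

/-- `g` is supported at the finite place `v` (identity at every other place). -/
def IsLocalAtFin (v : HeightOneSpectrum (𝓞 K)) (g : G K) : Prop :=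
  (∀ w : InfinitePlace K, TrivAtInf w g) ∧
    ∀ v' : HeightOneSpectrum (𝓞 K), v' ≠ v → TrivAtFin v' g

/-- The matrix of `g` at `v` has integral entries. -/
def IsIntegralAt (v : HeightOneSpectrum (𝓞 K)) (g : G K) : Prop :=
  ∀ i j, finComp v g i j ∈ v.adicCompletionIntegers K

/-! ## The level group -/

/-- The closure `𝔫 𝒪_v` of the ideal `𝔫` in the completion at `v`. -/
def idealClosure (𝔫 : Ideal (𝓞 K)) (v : HeightOneSpectrum (𝓞 K)) : Set (v.adicCompletion K) :=
  closure ((fun x : 𝓞 K => algebraMap K (v.adicCompletion K) (algebraMap (𝓞 K) K x)) ''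
    (𝔫 : Set (𝓞 K)))

/-- The principal congruence subgroup `U(𝔫) = {u ∈ GL₂(𝒪̂) : u ≡ 1 mod 𝔫}`, trivial at the
infinite places.  At `v ∤ 𝔫` the local factor is `GL₂(𝒪_v)`. -/
def InLevelGroup (𝔫 : Ideal (𝓞 K)) (u : G K) : Prop :=
  (∀ w : InfinitePlace K, TrivAtInf w u) ∧
    ∀ (v : HeightOneSpectrum (𝓞 K)) (i j : Fin 2),
      (finComp v u - 1) i j ∈ idealClosure 𝔫 v ∧ (finComp v u⁻¹ - 1) i j ∈ idealClosure 𝔫 v

/-! ## Archimedean conditions -/

/-- The maximal connected compact subgroup at `w`: `U(2)` at a complex place, `SO(2)` at a real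
place. -/
def IsArchCompact (w : InfinitePlace K) (k : G K) : Prop :=
  IsLocalAtInf w k ∧ infComp w k * (infComp w k).conjTranspose = 1 ∧
    (w.IsReal → (infComp w k).det = 1)

/-- Positive real scalar matrices at `w`. -/
def IsArchPosScalar (w : InfinitePlace K) (z : G K) : Prop :=
  IsLocalAtInf w z ∧ ∃ r : ℝ, 0 < r ∧ infComp w z = Matrix.diagonal (fun _ => (r : ℂ))

/-- `diag(e^{iα/2}, e^{-iα/2})`. -/
def rotZ (α : ℝ) : Matrix (Fin 2) (Fin 2) ℂ :=
  !![Complex.exp (Complex.I * ((α / 2 : ℝ) : ℂ)), 0;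
     0, Complex.exp (-(Complex.I * ((α / 2 : ℝ) : ℂ)))]

/-- The rotation matrix of angle `β / 2`. -/
def rotY (β : ℝ) : Matrix (Fin 2) (Fin 2) ℂ :=
  !![((Real.cos (β / 2) : ℝ) : ℂ), -((Real.sin (β / 2) : ℝ) : ℂ);
     ((Real.sin (β / 2) : ℝ) : ℂ), ((Real.cos (β / 2) : ℝ) : ℂ)]

/-- `diag(e^{d/2}, e^{-d/2})`: moves the base point of `ℍ³` (resp. `ℍ²`) to distance `d`. -/
def torus (d : ℝ) : Matrix (Fin 2) (Fin 2) ℂ :=
  !![((Real.exp (d / 2) : ℝ) : ℂ), 0;
     0, ((Real.exp (-(d / 2)) : ℝ) : ℂ)]

/-- Mean-value property at a COMPLEX place `w`, spherical parameter `0`: for every `g` and every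
radius `d > 0` the mean of `φ` over the geodesic sphere of radius `d` around `g` in
`ℍ³ = GL₂(ℂ) / ℂˣ U(2)` is `(d / sinh d) · φ(g)`.  The sphere is parametrised by Euler angles:
`k(α,β) = rotZ α * rotY β` runs over `SU(2) / U(1) = S²` with uniform measure
`sin β dβ dα / 4π`. -/
def MeanValueComplex (φ : G K → ℂ) (w : InfinitePlace K) : Prop :=
  ∀ d : ℝ, 0 < d → ∀ Y : ℝ → ℝ → G K,
    (∀ α β : ℝ, IsLocalAtInf w (Y α β) ∧ infComp w (Y α β) = rotZ α * rotY β * torus d) →
    ∀ g : G K,
      (∫ α in (0 : ℝ)..(2 * Real.pi), ∫ β in (0 : ℝ)..Real.pi,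
          φ (g * Y α β) * ((Real.sin β : ℝ) : ℂ))
        = ((4 * Real.pi * (d / Real.sinh d) : ℝ) : ℂ) * φ g

/-- Mean-value property at a REAL place `w`, spherical parameter `0` (Laplace eigenvalue `1/4`):
for every `g` and every radius `t > 0` the mean of `φ` over the geodesic circle of radius `t`
around `g` in `ℍ^± = GL₂(ℝ) / ℝ_{>0} SO(2)` is `P_{-1/2}(cosh t) · φ(g)`, where
`P_{-1/2}(cosh t) = (1/2π) ∫₀^{2π} (cosh t + sinh t cos θ)^{-1/2} dθ`. -/
def MeanValueReal (φ : G K → ℂ) (w : InfinitePlace K) : Prop :=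
  ∀ t : ℝ, 0 < t → ∀ Y : ℝ → G K,
    (∀ θ : ℝ, IsLocalAtInf w (Y θ) ∧ infComp w (Y θ) = rotY θ * torus t) →
    ∀ g : G K,
      (∫ θ in (0 : ℝ)..(2 * Real.pi), φ (g * Y θ))
        = ((∫ θ in (0 : ℝ)..(2 * Real.pi),
            (Real.cosh t + Real.sinh t * Real.cos θ) ^ (-(1 / 2 : ℝ)) : ℝ) : ℂ) * φ g

/-! ## Cuspidality -/

/-- Vanishing of the constant term along the upper unipotent radical:
`∫_{K \ 𝔸_K} φ(n(x) g) dx = 0` for all `g`.  The integral is over an arbitrary fundamental domain
of `K` in `𝔸_K` for an arbitrary Haar measure (Borel σ-algebra). -/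
def IsCuspidalFn (φ : G K → ℂ) : Prop :=
  letI : MeasurableSpace (Adl K) := borel (Adl K)
  ∀ μ : MeasureTheory.Measure (Adl K), μ.IsAddHaarMeasure →
    ∀ D : Set (Adl K),
      MeasureTheory.IsAddFundamentalDomain
        ((algebraMap K (Adl K)).toAddMonoidHom.range) D μ →
      ∀ n : Adl K → G K,
        (∀ x : Adl K, (n x : Matrix (Fin 2) (Fin 2) (Adl K)) = !![1, x; 0, 1]) →
        ∀ g : G K, ∫ x in D, φ (n x * g) ∂μ = 0

/-! ## Hecke operators at the finite places -/

/-- A full system of representatives of `GL₂(𝒪_v) diag(ϖ_v, 1) GL₂(𝒪_v) / GL₂(𝒪_v)`: `q_v + 1`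
elements supported at `v`, integral, with determinant a uniformiser, pairwise inequivalent modulo
`GL₂(𝒪_v)` on the right. -/
def IsHeckeCosetSystem (v : HeightOneSpectrum (𝓞 K)) (H : Finset (G K)) : Prop :=
  H.card = Ideal.absNorm v.asIdeal + 1 ∧
    (∀ h ∈ H, IsLocalAtFin v h ∧ IsIntegralAt v h ∧
      Valued.v (finComp v h).det = WithZero.exp (-1 : ℤ)) ∧
    ∀ h ∈ H, ∀ h' ∈ H, h ≠ h' → ¬ IsIntegralAt v (h⁻¹ * h')

/-- A scalar uniformiser at `v`. -/
def IsScalarUniformizerAt (v : HeightOneSpectrum (𝓞 K)) (z : G K) : Prop :=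
  IsLocalAtFin v z ∧ ∃ c : v.adicCompletion K,
    Valued.v c = WithZero.exp (-1 : ℤ) ∧ finComp v z = Matrix.diagonal (fun _ => c)

/-- `φ` is an eigenfunction of the Hecke operators at `v`, with `T_v`-eigenvalue `√q_v · a` and
`S_v`-eigenvalue `b` (unitary normalisation: `a = α_v + β_v`, `b = α_v β_v`). -/
def IsHeckeEigenAt (φ : G K → ℂ) (v : HeightOneSpectrum (𝓞 K)) (a b : ℂ) : Prop :=
  (∀ H : Finset (G K), IsHeckeCosetSystem v H →
      ∀ g : G K, ∑ h ∈ H, φ (g * h)
        = ((Real.sqrt (Ideal.absNorm v.asIdeal : ℝ) : ℝ) : ℂ) * a * φ g) ∧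
    ∀ z : G K, IsScalarUniformizerAt v z → ∀ g : G K, φ (g * z) = b * φ g

/-! ## The notion -/

/-- `φ` is a cusp form on `GL₂(𝔸_K)` of level `U(π.level)`, spherical of parameter `0` at every
infinite place, with Hecke eigensystem `π` away from the level. -/
structure IsSph0CuspFormFor (π : HeckeEigensystem K ℂ) (φ : G K → ℂ) : Prop where
  cont : Continuous φ
  bdd : ∃ C : ℝ, ∀ g : G K, ‖φ g‖ ≤ C
  ne_zero : ∃ g : G K, φ g ≠ 0
  left_inv : ∀ (γ : GL (Fin 2) K) (g : G K),
    φ (Matrix.GeneralLinearGroup.map (algebraMap K (Adl K)) γ * g) = φ g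
  level_inv : ∀ u : G K, InLevelGroup π.level u → ∀ g : G K, φ (g * u) = φ g
  arch_scalar : ∀ (w : InfinitePlace K) (z : G K), IsArchPosScalar w z →
    ∀ g : G K, φ (g * z) = φ g
  arch_compact : ∀ (w : InfinitePlace K) (k : G K), IsArchCompact w k →
    ∀ g : G K, φ (g * k) = φ g
  mean_complex : ∀ w : InfinitePlace K, w.IsComplex → MeanValueComplex φ w
  mean_real : ∀ w : InfinitePlace K, w.IsReal → MeanValueReal φ w
  cuspidal : IsCuspidalFn φ
  hecke : ∀ v : HeightOneSpectrum (𝓞 K), ¬ v.asIdeal ∣ π.level →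
    IsHeckeEigenAt φ v (π.a v) (π.b v)

/-- First alternative: `π` is the eigensystem of an adelic cusp form, spherical of parameter `0`
at every infinite place. -/
def IsCuspAdelicSph0 (K : Type) [Field K] [NumberField K] (π : HeckeEigensystem K ℂ) : Prop :=
  ∃ φ : G K → ℂ, IsSph0CuspFormFor π φ

/-- The classical datum of the second alternative (shape of the hypotheses of the landed S48 and
of `LTB.WallOut`): a normalised holomorphic cusp form of weight one on `Γ₁(N)` with the Hecke
relations of character `ε` at the primes not dividing `N`. -/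
def IsWtOneEigenform (N : ℕ) (ε : DirichletCharacter ℂ N) (f : CuspForm (Gamma1 N) 1) : Prop :=
  ModularFormClass.qCoeff f 1 = 1 ∧
    ∀ p : ℕ, p.Prime → ¬ p ∣ N → ∀ n : ℕ,
      ModularFormClass.qCoeff f (p * n) +
          ε (p : ZMod N) * (if p ∣ n then ModularFormClass.qCoeff f (n / p) else 0) =
        ModularFormClass.qCoeff f p * ModularFormClass.qCoeff f n

/-- Second alternative: `K` has degree one and `π` is the eigensystem of a classical holomorphic
cuspidal eigenform of weight one on `Γ₁(N)`, with `(N) ∣ π.level`. -/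
def IsCuspHolQ (K : Type) [Field K] [NumberField K] (π : HeckeEigensystem K ℂ) : Prop :=
  Module.finrank ℚ K = 1 ∧
    ∃ (N : ℕ) (_ : NeZero N) (ε : DirichletCharacter ℂ N) (f : CuspForm (Gamma1 N) 1),
      IsWtOneEigenform N ε f ∧
      π.level ≤ Ideal.span {(N : 𝓞 K)} ∧
      ∀ v : HeightOneSpectrum (𝓞 K), (N : 𝓞 K) ∉ v.asIdeal →
        π.a v = ModularFormClass.qCoeff f (Ideal.absNorm v.asIdeal) ∧
        π.b v = ε ((Ideal.absNorm v.asIdeal : ℕ) : ZMod N)

/-- THE NOTION of block A0. -/
def notion556 : CuspidalityNotion ℂ where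
  IsCusp := fun F _ _ π => IsCuspAdelicSph0 F π ∨ IsCuspHolQ F π

theorem notion556_isCusp_iff (F : Type) [Field F] [NumberField F] (π : HeckeEigensystem F ℂ) :
    notion556.IsCusp F π ↔ IsCuspAdelicSph0 F π ∨ IsCuspHolQ F π :=
  Iff.rfl

end Fermat.Agent.LT.H556.A0

end
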