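import Mathlib
import Fermat.Agent.LT.H17.Board
import Fermat.Agent.LT.H130.Wall
import Fermat.Agent.LT.H556.A0

/-!
# Row LT, WALL: D1 of the WALL-ARCH chief (helper556), OFF-MAIN

The skeleton of the WALL with the ARCHIMEDEAN TYPE tracked through the stations.

* Board: `Fermat/Agent/LT/H17/Board.lean` (helper17, `LTB.Hyp`, `LTB.WallOut`, `LTB.WallC`).
* Stations, fields and Frobenius data: `Fermat/Agent/LT/H130/Wall.lean` (helper130):
  `fieldE`, `fieldF`, `SeedData`, `MidData`, `BotData` are used VERBATIM.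
* Notion: `Fermat/Agent/LT/H556/A0.lean`: `A0.IsCuspAdelicSph0`, `A0.IsCuspHolQ`, `A0.notion556`.

Difference with the skeleton of helper130: there `IsCuspEig` carries NO archimedean condition, so
the leaf `PAR` of that file has to determine the archimedean type of a cuspidal representation of
`GL₂(𝔸_ℚ)` from Hecke data alone (true, but this is NOT the Rankin--Selberg mass count: an odd
central character does not exclude a principal series `π(|·|^s, sgn |·|^{-s})`, `s ≠ 0`, nor a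
discrete series of odd weight `≥ 3`).  Here the type is part of the notion:

* over `E` and over `F` (totally complex): spherical of parameter `0` (`Π_w = π(1,1)`);
* over `ℚ`: spherical of parameter `0` (`π(1,1)`, `π(sgn,sgn)`: EVEN central character) OR
  classical holomorphic of weight one (`π(1,sgn)`).

Then the descent leaves carry the type (as every proof of cyclic base change does), `PAR556` is
exactly the mass count (even central character, Maass eigenvalue `1/4`), and `A6_556` is the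
absorption of the finite exceptional set of primes into the level.

PROVED here: `wall_of_leaves556 : A2_556 → A3c_556 → A3q_556 → PAR556 → A6_556 → LTB.WallC`.
-/

set_option autoImplicit false

open AutomorphicForm FLT.ExplicitLift EisensteinWeightOne
open WeierstrassCurve CongruenceSubgroup
open IsDedekindDomain NumberField
open scoped MatrixGroups

noncomputable section

namespace Fermat.Agent.LT.H556.WT

open Fermat.Agent.LT.H130 Fermat.Agent.LT.H556

local notation "Γℚ" => (AlgebraicClosure ℚ ≃ₐ[ℚ] AlgebraicClosure ℚ)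

/-! ## Stations -/

/-- Station `E`: a cusp form on `GL₂(𝔸_E)`, spherical of parameter `0` at the (complex) infinite
places, with the data of `Ψ ∘ ρ|_{G_E}`. -/
def SeedAt556 (ρ : Γℚ →* GL (Fin 2) (ZMod 3)) (Ψ : GL (Fin 2) (ZMod 3) →* GL (Fin 2) (ℤ√(-2)))
    (ι : ℤ√(-2) →+* ℂ) : Prop :=
  ∃ (_ : NumberField (fieldE ρ)) (π : HeckeEigensystem (fieldE ρ) ℂ),
    A0.IsCuspAdelicSph0 (fieldE ρ) π ∧ SeedData (fieldE ρ) ρ Ψ ι π

/-- Station `F`: a cusp form on `GL₂(𝔸_F)`, spherical of parameter `0` at the complex place,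
trivial central character, whose base change to `E` is the seed. -/
def MidAt556 (ρ : Γℚ →* GL (Fin 2) (ZMod 3)) (Ψ : GL (Fin 2) (ZMod 3) →* GL (Fin 2) (ℤ√(-2)))
    (ι : ℤ√(-2) →+* ℂ) : Prop :=
  ∃ (_ : NumberField (fieldF ρ)) (π : HeckeEigensystem (fieldF ρ) ℂ),
    A0.IsCuspAdelicSph0 (fieldF ρ) π ∧ MidData (fieldF ρ) ρ Ψ ι π

/-- Station `ℚ`: a cuspidal eigensystem over `ℚ` in the sense of `A0.notion556` (Maass form of
eigenvalue `1/4`, or holomorphic of weight one) whose base change to `F` is the one of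
`MidAt556`. -/
def BotAt556 (ρ : Γℚ →* GL (Fin 2) (ZMod 3)) (Ψ : GL (Fin 2) (ZMod 3) →* GL (Fin 2) (ℤ√(-2)))
    (ι : ℤ√(-2) →+* ℂ) : Prop :=
  ∃ π : HeckeEigensystem ℚ ℂ, A0.notion556.IsCusp ℚ π ∧ BotData ρ Ψ ι π

/-- Station `ℚ`, holomorphic alternative. -/
def HolAt556 (ρ : Γℚ →* GL (Fin 2) (ZMod 3)) (Ψ : GL (Fin 2) (ZMod 3) →* GL (Fin 2) (ℤ√(-2)))
    (ι : ℤ√(-2) →+* ℂ) : Prop :=
  ∃ π : HeckeEigensystem ℚ ℂ, A0.IsCuspHolQ ℚ π ∧ BotData ρ Ψ ι π

/-! ## The leaves (frozen Props) -/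

/-- **A2 (SEED over `E`).**  The dihedral form `π(θ)` over the totally complex sextic field `E`;
its archimedean components are `π(1,1)` because `Ψ ∘ ρ` is trivial on `W_ℂ`. -/
def A2_556 : Prop :=
  ∀ (ρ : Γℚ →* GL (Fin 2) (ZMod 3)) (Ψ : GL (Fin 2) (ZMod 3) →* GL (Fin 2) (ℤ√(-2))),
    LTB.Hyp ρ Ψ → ∃ ι : ℤ√(-2) →+* ℂ, SeedAt556 ρ Ψ ι

/-- **A3c (cubic cyclic descent `E/F`).**  Langlands: a `Gal(E/F)`-invariant cuspidal
representation is a base change; the complex place of `F` splits in `E`, so the descent is again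
`π(1,1)` at infinity; exactly one of the three descents has trivial central character. -/
def A3c_556 : Prop :=
  ∀ (ρ : Γℚ →* GL (Fin 2) (ZMod 3)) (Ψ : GL (Fin 2) (ZMod 3) →* GL (Fin 2) (ℤ√(-2)))
    (ι : ℤ√(-2) →+* ℂ), LTB.Hyp ρ Ψ → SeedAt556 ρ Ψ ι → MidAt556 ρ Ψ ι

/-- **A3q (quadratic descent `F/ℚ`).**  Langlands: the form of `MidAt556` is
`Gal(F/ℚ)`-invariant, hence a base change of a cuspidal `Π` over `ℚ`; `BC_{ℂ/ℝ}(Π_∞) = π(1,1)`,
so `Π_∞ ∈ {π(1,1), π(sgn,sgn), π(1,sgn)}`: the two alternatives of `A0.notion556`.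
(The passage from the adelic form of type `π(1,sgn)` to the classical weight-one form belongs to
this leaf.) -/
def A3q_556 : Prop :=
  ∀ (ρ : Γℚ →* GL (Fin 2) (ZMod 3)) (Ψ : GL (Fin 2) (ZMod 3) →* GL (Fin 2) (ℤ√(-2)))
    (ι : ℤ√(-2) →+* ℂ), LTB.Hyp ρ Ψ → MidAt556 ρ Ψ ι → BotAt556 ρ Ψ ι

/-- **PAR (parity).**  No cusp form on `GL₂(𝔸_ℚ)` which is spherical of parameter `0` at the real
place (Maass form of eigenvalue `1/4`, central character EVEN because `-1 ∈ SO(2)`) has the data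
`BotData`: the central character would be trivial, `|a_p|² = 4` at the primes whose Frobenius has
order `2`, and the Chebotarev average of `|a_p|²` would be `2`, against Rankin--Selberg
(average `1`). -/
def PAR556 : Prop :=
  ∀ (ρ : Γℚ →* GL (Fin 2) (ZMod 3)) (Ψ : GL (Fin 2) (ZMod 3) →* GL (Fin 2) (ℤ√(-2)))
    (ι : ℤ√(-2) →+* ℂ), LTB.Hyp ρ Ψ →
    ∀ π : HeckeEigensystem ℚ ℂ, A0.IsCuspAdelicSph0 ℚ π → ¬ BotData ρ Ψ ι π

/-- **A6 (dictionary).**  The classical weight-one eigenform of `A0.IsCuspHolQ`, with the data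
`BotData` at almost all primes, gives `LTB.WallOut`: unfold, and absorb the finite exceptional set
of primes into the level (`Γ₁(N M) ≤ Γ₁(N)`). -/
def A6_556 : Prop :=
  ∀ (ρ : Γℚ →* GL (Fin 2) (ZMod 3)) (Ψ : GL (Fin 2) (ZMod 3) →* GL (Fin 2) (ℤ√(-2)))
    (ι : ℤ√(-2) →+* ℂ), LTB.Hyp ρ Ψ → HolAt556 ρ Ψ ι → LTB.WallOut ρ Ψ

/-! ## The top -/

/-- **THE WALL from its five leaves, archimedean type tracked.** -/
theorem wall_of_leaves556 (h2 : A2_556) (h3c : A3c_556) (h3q : A3q_556) (hpar : PAR556)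
    (h6 : A6_556) : LTB.WallC := by
  intro ρ Ψ hyp
  obtain ⟨ι, hseed⟩ := h2 ρ Ψ hyp
  obtain ⟨π, hπ, hdata⟩ := h3q ρ Ψ ι hyp (h3c ρ Ψ ι hyp hseed)
  rcases hπ with hsph | hhol
  · exact absurd hdata (hpar ρ Ψ ι hyp π hsph)
  · exact h6 ρ Ψ ι hyp ⟨π, hhol, hdata⟩

end Fermat.Agent.LT.H556.WT

end
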