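import Fermat.Agent.LT.H556.Inst670

/-!
# Row LT, WALL: the holomorphic half of the dictionary is PROVED (helper556)

`dictHolC : DictHolC`, with `absNorm_ratPrime`, `natCast_mem_ratPrime_iff`.  OFF-MAIN.
-/


set_option autoImplicit false

open AutomorphicForm IsDedekindDomain NumberField

noncomputable section

namespace Fermat.Agent.LT.H556.I670

open Fermat.Agent.LT.H670 Fermat.Agent.LT.H556

theorem natGenerator_ratPrime (p : Nat.Primes) :
    Rat.HeightOneSpectrum.natGenerator (ratPrime p) = (p : ℕ) :=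
  congrArg Subtype.val
    (Equiv.apply_symm_apply (Rat.HeightOneSpectrum.primesEquiv (R := 𝓞 ℚ)) p)

theorem mem_ratPrime_iff (p : Nat.Primes) (x : 𝓞 ℚ) :
    x ∈ (ratPrime p).asIdeal ↔ ((p : ℕ) : 𝓞 ℚ) ∣ x := by
  have h1 : x ∈ (ratPrime p).asIdeal ↔
      Rat.IsIntegralClosure.intEquiv (𝓞 ℚ) x ∈
        (ratPrime p).asIdeal.map (Rat.IsIntegralClosure.intEquiv (𝓞 ℚ)) :=
    (Ideal.apply_mem_of_equiv_iff (f := Rat.IsIntegralClosure.intEquiv (𝓞 ℚ))).symm
  rw [h1, ← Rat.HeightOneSpectrum.span_natGenerator, natGenerator_ratPrime,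
    Ideal.mem_span_singleton]
  constructor
  · intro h
    have h2 := map_dvd (Rat.IsIntegralClosure.intEquiv (𝓞 ℚ)).symm h
    rw [RingEquiv.symm_apply_apply, map_natCast] at h2
    exact h2
  · intro h
    have h2 := map_dvd (Rat.IsIntegralClosure.intEquiv (𝓞 ℚ)) h
    rw [map_natCast] at h2
    exact h2

theorem ratPrime_asIdeal (p : Nat.Primes) :
    (ratPrime p).asIdeal = Ideal.span {((p : ℕ) : 𝓞 ℚ)} := by
  ext x
  rw [mem_ratPrime_iff, Ideal.mem_span_singleton]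

theorem natCast_mem_ratPrime_iff (p : Nat.Primes) (n : ℕ) :
    (n : 𝓞 ℚ) ∈ (ratPrime p).asIdeal ↔ (p : ℕ) ∣ n := by
  have h1 : (n : 𝓞 ℚ) ∈ (ratPrime p).asIdeal ↔
      Rat.IsIntegralClosure.intEquiv (𝓞 ℚ) (n : 𝓞 ℚ) ∈
        (ratPrime p).asIdeal.map (Rat.IsIntegralClosure.intEquiv (𝓞 ℚ)) :=
    (Ideal.apply_mem_of_equiv_iff (f := Rat.IsIntegralClosure.intEquiv (𝓞 ℚ))).symm
  rw [h1, map_natCast, ← Rat.HeightOneSpectrum.natGenerator_dvd_iff, natGenerator_ratPrime]

theorem absNorm_ratPrime (p : Nat.Primes) :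
    Ideal.absNorm (ratPrime p).asIdeal = (p : ℕ) := by
  rw [ratPrime_asIdeal, Ideal.absNorm_span_singleton, Algebra.norm_natCast,
    NumberField.RingOfIntegers.rank, Module.finrank_self]
  simp

/-- **DICT, holomorphic half: PROVED.**  With the second alternative of `A0.notion556` the
dictionary is an unfolding. -/
theorem dictHolC : DictHolC := by
  intro π hπ
  obtain ⟨-, N, hN, ε, f, ⟨hf1, hrel⟩, -, hmatch⟩ := hπ
  refine ⟨N, hN, ε, f, hf1, hrel, Finset.range (N + 1), ?_⟩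
  intro p hp
  have hpN : ¬ (p : ℕ) ∣ N := by
    intro hdvd
    have hle := Nat.le_of_dvd (Nat.pos_of_ne_zero (NeZero.ne N)) hdvd
    exact hp (Finset.mem_range.2 (Nat.lt_succ_of_le hle))
  have hnot : (N : 𝓞 ℚ) ∉ (ratPrime p).asIdeal := by
    rw [natCast_mem_ratPrime_iff]
    exact hpN
  have := (hmatch (ratPrime p) hnot).1
  rw [this, absNorm_ratPrime]

end Fermat.Agent.LT.H556.I670
end
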