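import Fermat.Agent.LT.H556.WallTop
import Fermat.Agent.LT.H556.DictHol

/-!
# Row LT, WALL: leaf `A6_556` is PROVED (helper556)

`a6_556 : WT.A6_556` (unfold `A0.IsCuspHolQ`, read `BotData` at the primes whose Frobenius lies in
`Q8`, absorb the exceptional primes by helper670's `deplWC`), hence
`wall_of_four556 : A2_556 → A3c_556 → A3q_556 → PAR556 → LTB.WallC`.  OFF-MAIN.
-/

set_option autoImplicit false

open AutomorphicForm IsDedekindDomain NumberField

noncomputable section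

namespace Fermat.Agent.LT.H556.WT

open Fermat.Agent.LT.H130 Fermat.Agent.LT.H670 Fermat.Agent.LT.H556 Fermat.Agent.LT.H556.I670

local notation "Γℚ" => (AlgebraicClosure ℚ ≃ₐ[ℚ] AlgebraicClosure ℚ)

/-- **A6: PROVED.** -/
theorem a6_556 : A6_556 := by
  classical
  intro ρ Ψ ι _ hHol
  obtain ⟨π, ⟨-, N, hN, ε, f, ⟨hf1, hrel⟩, -, hmatch⟩, S, hS⟩ := hHol
  apply deplWC ρ Ψ
  refine ⟨N, hN, ε, f, ι, S ∪ Finset.range (N + 1), hf1, hrel, ?_⟩
  intro p hp hpS A hA σ hσ hdet h4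
  rw [Finset.mem_union, not_or] at hpS
  have hpN : ¬ p ∣ N := by
    intro hdvd
    have hle := Nat.le_of_dvd (Nat.pos_of_ne_zero (NeZero.ne N)) hdvd
    exact hpS.2 (Finset.mem_range.2 (Nat.lt_succ_of_le hle))
  have hmem : ((p : ℕ) : 𝓞 ℚ) ∈ (ratPrime ⟨p, hp⟩).asIdeal := by
    rw [natCast_mem_ratPrime_iff]
  have hnot : (N : 𝓞 ℚ) ∉ (ratPrime ⟨p, hp⟩).asIdeal := by
    rw [natCast_mem_ratPrime_iff]
    exact hpN
  have hdata := (hS p hp hpS.1 A hA σ hσ (ratPrime ⟨p, hp⟩) hmem).1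
  have hQ8 : InQ8 (ρ σ) := ⟨hdet, h4⟩
  have hSL : ordSL (ρ σ) = 1 := by
    unfold ordSL
    rw [if_pos hdet]
  have hO : ordQ8 (ρ σ) = 1 := by
    unfold ordQ8
    rw [if_pos hQ8]
  rw [hSL, pow_one, hO, pow_one, satakePow_one, satakePow_one] at hdata
  have ha := (hmatch (ratPrime ⟨p, hp⟩) hnot).1
  rw [absNorm_ratPrime] at ha
  rw [← ha, hdata, pow_one]
  rfl

/-- **THE WALL from FOUR leaves** (archimedean type tracked; dictionary proved). -/
theorem wall_of_four556 (h2 : A2_556) (h3c : A3c_556) (h3q : A3q_556) (hpar : PAR556) :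
    LTB.WallC :=
  wall_of_leaves556 h2 h3c h3q hpar a6_556

end Fermat.Agent.LT.H556.WT

end
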