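import Fermat.Agent.LT.H670.WallDepl
import Fermat.Agent.LT.H556.A0

/-!
# Row LT, WALL: the abstract WALL-TOP of helper670 instantiated at `A0.notion556` (helper556)

`Fermat/Agent/LT/H670/WallTop.lean` + `WallDepl.lean` (helper670 @09d8e8546, byte-identical copies)
prove `wall_of_leaves'` for an ARBITRARY `notion : CuspidalityNotion ℂ`.  At `notion556` the seven
remaining leaves are TRUE statements (audit: `coord/LT-A0-helper556.md` par.6):

* `TowerC`, `SplitC`: no notion involved (elementary).
* `SeedC notion556`, `Desc3C notion556`: the forms live in the first alternative
  (`A0.IsCuspAdelicSph0`), `E` and `F` being totally complex.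
* `Desc2C notion556`: the descent to `ℚ` of a form of type `π(1,1)` over `F` is of type `π(1,1)`,
  `π(sgn,sgn)` (first alternative) or `π(1,sgn)` (second alternative, `A0.IsCuspHolQ`).
* `ParC notion556`: central character `χ₋₃` (mass count for the even alternative).
* `DictC notion556`: first alternative + central character `χ₋₃` is contradictory (the central
  character of an `SO(2)`-invariant form is even); second alternative: unfold `A0.IsCuspHolQ`.
-/

set_option autoImplicit false

open AutomorphicForm

noncomputable section

namespace Fermat.Agent.LT.H556.I670

open Fermat.Agent.LT.H670 Fermat.Agent.LT.H556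

/-- `LTB.WallC` from the leaves of helper670's WALL-TOP at the notion of block A0. -/
theorem wallC_of_leaves_notion556
    (hT : TowerC) (hSeed : SeedC A0.notion556) (h3 : Desc3C A0.notion556)
    (h2 : Desc2C A0.notion556) (hSplit : SplitC) (hPar : ParC A0.notion556)
    (hDict : DictC A0.notion556) : LTB.WallC :=
  wall_of_leaves' A0.notion556 hT hSeed h3 h2 hSplit hPar hDict

/-- The half of `DictC notion556` that carries all the content of the dictionary: with the second
alternative the classical form is part of the datum. -/
def DictHolC : Prop :=
  ∀ π : HeckeEigensystem ℚ ℂ, A0.IsCuspHolQ ℚ π → ClassicalFor π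

/-- The other half: a form over `ℚ` which is spherical of parameter `0` at the real place has an
EVEN central character, so it cannot have central character `χ₋₃`. -/
def DictEvenC : Prop :=
  ∀ π : HeckeEigensystem ℚ ℂ, A0.IsCuspAdelicSph0 ℚ π → ¬ HasCentralCharChi π

theorem dictC_of_halves (h1 : DictHolC) (h2 : DictEvenC) : DictC A0.notion556 := by
  intro π hπ hχ
  rcases hπ with hs | hh
  · exact absurd hχ (h2 π hs)
  · exact h1 π hh

end Fermat.Agent.LT.H556.I670

end
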